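/-
T16 / UP (the case `l = p` of the upper bound): abstract cores over `ℚ` in power-series form, for the
weight-4 trace identity (`p ∤ 240`) and the weight-6 trace identity (`p ∤ 504`).  Mathlib only.

`g = ∑ a_n q^n` is the `q`-expansion of `G ∈ M_2(Γ0(p))` (rational, `p`-integral, `a_0` a `p`-unit,
`a_n ≡ 0 mod p` for `n ≥ 1`); `Up g = ∑ a_{pn} q^n`; `G|W_p` has expansion `-Up g`.
  weight 4:  `p g^2 + Up((Up g)^2) = lam · E4`     (`Tr(G^2) ∈ M_4(SL2(ℤ)) = ℂ E4`, `E4 = 1 + 240 q + …`)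
  weight 6:  `p^2 g^3 - Up((Up g)^3) = mu · E6`    (`Tr(G^3) ∈ M_6(SL2(ℤ)) = ℂ E6`, `E6 = 1 - 504 q + …`)
Only the coefficients of `q^0` and `q^1` are used.
-/
import Mathlib

set_option autoImplicit false

namespace Fermat.Agent.S16.UP

open Finset PowerSeries

/-- the operator `U_p` on power series: `(U_p f)_n = f_{pn}` -/
noncomputable def Up {R : Type*} [Semiring R] (p : ℕ) (f : PowerSeries R) : PowerSeries R :=
  PowerSeries.mk fun n => coeff (p * n) f

@[simp] lemma coeff_Up {R : Type*} [Semiring R] (p n : ℕ) (f : PowerSeries R) :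
    coeff n (Up p f) = coeff (p * n) f := by
  simp [Up]

section norms

variable (p : ℕ) [hp : Fact p.Prime]

lemma padicNorm_natCast_lt_one : padicNorm p (p : ℚ) < 1 := by
  rw [padicNorm.padicNorm_p hp.out.one_lt]
  exact inv_lt_one_of_one_lt₀ (by exact_mod_cast hp.out.one_lt)

/-- a finite sum of products, each having a factor of norm `< 1` and the other factor of norm `≤ 1`,
has norm `< 1` -/
lemma padicNorm_sum_mul_lt {ι : Type*} (s : Finset ι) (hs : s.Nonempty) (x y : ι → ℚ)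
    (hx : ∀ i ∈ s, padicNorm p (x i) ≤ 1) (hy : ∀ i ∈ s, padicNorm p (y i) ≤ 1)
    (hxy : ∀ i ∈ s, padicNorm p (x i) < 1 ∨ padicNorm p (y i) < 1) :
    padicNorm p (∑ i ∈ s, x i * y i) < 1 := by
  apply padicNorm.sum_lt hs
  intro i hi
  rw [padicNorm.mul]
  rcases hxy i hi with h | h
  · calc padicNorm p (x i) * padicNorm p (y i) ≤ padicNorm p (x i) * 1 :=
          mul_le_mul_of_nonneg_left (hy i hi) (padicNorm.nonneg _)
      _ < 1 := by rw [mul_one]; exact h
  · calc padicNorm p (x i) * padicNorm p (y i) ≤ 1 * padicNorm p (y i) :=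
          mul_le_mul_of_nonneg_right (hx i hi) (padicNorm.nonneg _)
      _ < 1 := by rw [one_mul]; exact h

variable {p}

/-- coefficients of a product of two `p`-integral series are `p`-integral -/
lemma padicNorm_coeff_mul_le {f g : PowerSeries ℚ} (hf : ∀ n, padicNorm p (coeff n f) ≤ 1)
    (hg : ∀ n, padicNorm p (coeff n g) ≤ 1) (n : ℕ) : padicNorm p (coeff n (f * g)) ≤ 1 := by
  rw [coeff_mul]
  apply padicNorm.sum_le ⟨(0, n), by simp⟩
  intro ij _
  rw [padicNorm.mul]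
  exact mul_le_one₀ (hf _) (padicNorm.nonneg _) (hg _)

/-- if all higher coefficients of `f` are `≡ 0 mod p`, `f`,`g` `p`-integral and all higher
coefficients of `g` are `≡ 0`, then the higher coefficients of `f g` are `≡ 0 mod p` -/
lemma padicNorm_coeff_mul_lt {f g : PowerSeries ℚ} (hf : ∀ n, padicNorm p (coeff n f) ≤ 1)
    (hg : ∀ n, padicNorm p (coeff n g) ≤ 1)
    (hf1 : ∀ n, 1 ≤ n → padicNorm p (coeff n f) < 1)
    (hg1 : ∀ n, 1 ≤ n → padicNorm p (coeff n g) < 1) (n : ℕ) (hn : 1 ≤ n) :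
    padicNorm p (coeff n (f * g)) < 1 := by
  rw [coeff_mul]
  apply padicNorm_sum_mul_lt p _ ⟨(0, n), by simp⟩ _ _ (fun _ _ => hf _) (fun _ _ => hg _)
  intro ij hij
  rw [Finset.HasAntidiagonal.mem_antidiagonal] at hij
  rcases Nat.eq_zero_or_pos ij.1 with h | h
  · right
    exact hg1 _ (by omega)
  · left
    exact hf1 _ h

end norms


section main

variable {p : ℕ} [hp : Fact p.Prime]

private lemma coeff_zero_sq (f : PowerSeries ℚ) : coeff 0 (f ^ 2) = coeff 0 f ^ 2 := by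
  simp only [coeff_zero_eq_constantCoeff, map_pow]

private lemma coeff_zero_cube (f : PowerSeries ℚ) : coeff 0 (f ^ 3) = coeff 0 f ^ 3 := by
  simp only [coeff_zero_eq_constantCoeff, map_pow]

omit hp in
private lemma padicNorm_le_of (g : PowerSeries ℚ) (h0 : padicNorm p (coeff 0 g) = 1)
    (h1 : ∀ n, 1 ≤ n → padicNorm p (coeff n g) < 1) (n : ℕ) : padicNorm p (coeff n g) ≤ 1 := by
  rcases Nat.eq_zero_or_pos n with rfl | hn
  · exact h0.le
  · exact (h1 n hn).le

private lemma padicNorm_nat_eq_one {m : ℕ} (hm : ¬ p ∣ m) : padicNorm p (m : ℚ) = 1 := by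
  rw [padicNorm.nat_eq_one_iff]
  exact hm

/-- **UP, weight 4.**  For `p ∤ 240` the trace identity `p g² + U_p((U_p g)²) = lam · E4` is
incompatible with `g ≡ unit mod p`. -/
theorem false_of_trace4 (hp240 : ¬ p ∣ 240) (g E4 : PowerSeries ℚ) (lam : ℚ)
    (h0 : padicNorm p (coeff 0 g) = 1) (h1 : ∀ n, 1 ≤ n → padicNorm p (coeff n g) < 1)
    (hE40 : coeff 0 E4 = 1) (hE41 : coeff 1 E4 = 240)
    (h2 : ∀ n, (p : ℚ) * coeff n (g ^ 2) + coeff (p * n) ((Up p g) ^ 2) = lam * coeff n E4) :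
    False := by
  have hle := padicNorm_le_of g h0 h1
  have hU0 : coeff 0 (Up p g) = coeff 0 g := by simp
  have hUle : ∀ n, padicNorm p (coeff n (Up p g)) ≤ 1 := fun n => by
    rw [coeff_Up]; exact hle _
  have hU1 : ∀ n, 1 ≤ n → padicNorm p (coeff n (Up p g)) < 1 := fun n hn => by
    rw [coeff_Up]; exact h1 _ (Nat.mul_pos hp.out.pos hn)
  have e0 := h2 0
  rw [mul_zero, hE40, mul_one, coeff_zero_sq, coeff_zero_sq, hU0] at e0
  have e1 := h2 1
  rw [mul_one, hE41, ← e0] at e1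
  -- norms
  have hL : padicNorm p (((p : ℚ) * coeff 0 g ^ 2 + coeff 0 g ^ 2) * 240) = 1 := by
    have : ((p : ℚ) * coeff 0 g ^ 2 + coeff 0 g ^ 2) * 240
        = ((p + 1 : ℕ) : ℚ) * (coeff 0 g * coeff 0 g) * ((240 : ℕ) : ℚ) := by
      push_cast; ring
    rw [this, padicNorm.mul, padicNorm.mul, padicNorm.mul, h0, padicNorm_nat_eq_one hp240,
      padicNorm_nat_eq_one, mul_one, mul_one, mul_one]
    intro hdvd
    have : p ∣ 1 := (Nat.dvd_add_right (dvd_refl p)).1 hdvd
    exact hp.out.one_lt.ne' (Nat.dvd_one.1 this)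
  have hR : padicNorm p ((p : ℚ) * coeff 1 (g ^ 2) + coeff p ((Up p g) ^ 2)) < 1 := by
    have hA : padicNorm p ((p : ℚ) * coeff 1 (g ^ 2)) < 1 := by
      rw [padicNorm.mul, pow_two]
      calc padicNorm p (p : ℚ) * padicNorm p (coeff 1 (g * g))
          ≤ padicNorm p (p : ℚ) * 1 :=
            mul_le_mul_of_nonneg_left (padicNorm_coeff_mul_le hle hle 1) (padicNorm.nonneg _)
        _ < 1 := by rw [mul_one]; exact padicNorm_natCast_lt_one p
    have hB : padicNorm p (coeff p ((Up p g) ^ 2)) < 1 := by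
      rw [pow_two]
      exact padicNorm_coeff_mul_lt hUle hUle hU1 hU1 p hp.out.pos
    exact lt_of_le_of_lt padicNorm.nonarchimedean (max_lt hA hB)
  rw [e1, hL] at hR
  exact lt_irrefl _ hR

/-- **UP, weight 6.**  For `p ∤ 504` the trace identity `p² g³ - U_p((U_p g)³) = mu · E6` is
incompatible with `g ≡ unit mod p`. -/
theorem false_of_trace6 (hp504 : ¬ p ∣ 504) (g E6 : PowerSeries ℚ) (mu : ℚ)
    (h0 : padicNorm p (coeff 0 g) = 1) (h1 : ∀ n, 1 ≤ n → padicNorm p (coeff n g) < 1)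
    (hE60 : coeff 0 E6 = 1) (hE61 : coeff 1 E6 = -504)
    (h3 : ∀ n, (p : ℚ) ^ 2 * coeff n (g ^ 3) - coeff (p * n) ((Up p g) ^ 3) = mu * coeff n E6) :
    False := by
  have hle := padicNorm_le_of g h0 h1
  have hU0 : coeff 0 (Up p g) = coeff 0 g := by simp
  have hUle : ∀ n, padicNorm p (coeff n (Up p g)) ≤ 1 := fun n => by
    rw [coeff_Up]; exact hle _
  have hU1 : ∀ n, 1 ≤ n → padicNorm p (coeff n (Up p g)) < 1 := fun n hn => by
    rw [coeff_Up]; exact h1 _ (Nat.mul_pos hp.out.pos hn)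
  have e0 := h3 0
  rw [mul_zero, hE60, mul_one, coeff_zero_cube, coeff_zero_cube, hU0] at e0
  have e1 := h3 1
  rw [mul_one, hE61, ← e0] at e1
  have hp2 : 2 ≤ p := hp.out.two_le
  have hL : padicNorm p (((p : ℚ) ^ 2 * coeff 0 g ^ 3 - coeff 0 g ^ 3) * (-504)) = 1 := by
    have : ((p : ℚ) ^ 2 * coeff 0 g ^ 3 - coeff 0 g ^ 3) * (-504)
        = -(((p ^ 2 - 1 : ℕ) : ℚ) * (coeff 0 g * (coeff 0 g * coeff 0 g)) * ((504 : ℕ) : ℚ)) := by
      have h1le : 1 ≤ p ^ 2 := Nat.one_le_pow _ _ hp.out.pos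
      push_cast [Nat.cast_sub h1le]; ring
    rw [this, padicNorm.neg, padicNorm.mul, padicNorm.mul, padicNorm.mul, padicNorm.mul, h0,
      padicNorm_nat_eq_one hp504, padicNorm_nat_eq_one, mul_one, mul_one, mul_one, mul_one]
    intro hdvd
    have h1le : 1 ≤ p ^ 2 := Nat.one_le_pow _ _ hp.out.pos
    have h2 : p ∣ p ^ 2 := dvd_pow_self p two_ne_zero
    have : p ∣ 1 := by
      have := (Nat.dvd_sub h2 hdvd)
      rwa [Nat.sub_sub_self h1le] at this
    exact hp.out.one_lt.ne' (Nat.dvd_one.1 this)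
  have hR : padicNorm p ((p : ℚ) ^ 2 * coeff 1 (g ^ 3) - coeff p ((Up p g) ^ 3)) < 1 := by
    have hA : padicNorm p ((p : ℚ) ^ 2 * coeff 1 (g ^ 3)) < 1 := by
      rw [padicNorm.mul, pow_two, padicNorm.mul]
      have hg3 : padicNorm p (coeff 1 (g ^ 3)) ≤ 1 := by
        rw [pow_succ, pow_two]
        exact padicNorm_coeff_mul_le (padicNorm_coeff_mul_le hle hle) hle 1
      have hpl := padicNorm_natCast_lt_one p
      have hpn := padicNorm.nonneg (p := p) (p : ℚ)
      calc padicNorm p (p : ℚ) * padicNorm p (p : ℚ) * padicNorm p (coeff 1 (g ^ 3))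
          ≤ padicNorm p (p : ℚ) * padicNorm p (p : ℚ) * 1 :=
            mul_le_mul_of_nonneg_left hg3 (mul_nonneg hpn hpn)
        _ < 1 := by
            rw [mul_one]
            calc padicNorm p (p : ℚ) * padicNorm p (p : ℚ) ≤ 1 * padicNorm p (p : ℚ) :=
                  mul_le_mul_of_nonneg_right hpl.le hpn
              _ < 1 := by rw [one_mul]; exact hpl
    have hB : padicNorm p (coeff p ((Up p g) ^ 3)) < 1 := by
      rw [pow_succ, pow_two]
      exact padicNorm_coeff_mul_lt (padicNorm_coeff_mul_le hUle hUle) hUle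
        (padicNorm_coeff_mul_lt hUle hUle hU1 hU1) hU1 p hp.out.pos
    rw [sub_eq_add_neg]
    refine lt_of_le_of_lt padicNorm.nonarchimedean (max_lt hA ?_)
    rw [padicNorm.neg]
    exact hB
  rw [e1, hL] at hR
  exact lt_irrefl _ hR

end main

end Fermat.Agent.S16.UP
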