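/-
T16 / UP: the weight-4 and weight-6 trace identities for `G ∈ M_2(Γ0(p))`, derived from helper16's
`Conj/Trace.lean` (weight-general trace formula, `G|W = -U_p G`) and Mathlib's
`M_4(SL2(ℤ)) = ℂ E₄`, `M_6(SL2(ℤ)) = ℂ E₆`:
  `p g² + U_p((U_p g)²) = lam · E₄`,   `p² g³ - U_p((U_p g)³) = mu · E₆`     (`g = qExpansion 1 G`).
-/
import Fermat.Agent.S16.Conj.Trace

set_option autoImplicit false

open UpperHalfPlane ModularForm SlashInvariantForm ModularFormClass EisensteinSeries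
open scoped MatrixGroups ModularForm Manifold

namespace Fermat.Agent.S16.UP

open Fermat.Agent.S16.Conj.Trace

variable {p : ℕ} [Fact p.Prime]

/-- the Fricke operator is multiplicative up to the factor `p = det W_p` -/
theorem coe_frickeMF_mul {k1 k2 : ℤ} (F : ModularForm (lvl p) k1) (G : ModularForm (lvl p) k2) :
    (frickeMF (F.mul G) : ℍ → ℂ)
      = (((p : ℂ) • ((frickeMF F).mul (frickeMF G)) : ModularForm (lvl p) (k1 + k2)) : ℍ → ℂ) := by
  rw [coe_frickeMF, ModularForm.coe_mul, ModularForm.mul_slash, det_frickeMatrix]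
  rw [FunLike.coe_smul, ModularForm.coe_mul, coe_frickeMF, coe_frickeMF]
  ext z
  simp

theorem qExpansion_frickeMF_mul {k1 k2 : ℤ} (F : ModularForm (lvl p) k1)
    (G : ModularForm (lvl p) k2) :
    qExpansion 1 (frickeMF (F.mul G))
      = (p : ℂ) • (qExpansion 1 (frickeMF F) * qExpansion 1 (frickeMF G)) := by
  rw [coe_frickeMF_mul, FunLike.coe_smul,
    ModularForm.qExpansion_smul one_pos one_mem_strictPeriods_lvl,
    ModularForm.qExpansion_mul one_pos one_mem_strictPeriods_lvl]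

/-- **weight 4 trace identity**: `p g² + U_p((U_p g)²) = lam · E₄`. -/
theorem trace_identity_four (G : ModularForm (lvl p) 2) :
    ∃ lam : ℂ, (p : ℂ) • (qExpansion 1 G) ^ 2 + Uop p ((Uop p (qExpansion 1 G)) ^ 2)
      = lam • qExpansion 1 (E₄ : ℍ → ℂ) := by
  have hp : (p : ℂ) ≠ 0 := Nat.cast_ne_zero.mpr (Fact.out : p.Prime).ne_zero
  obtain ⟨c4, hc4⟩ : ∃ c4 : ℂ, c4 • E₄ = traceMF (G.mul G) :=
    (finrank_eq_one_iff_of_nonzero' E₄ (E_ne_zero _ ⟨2, rfl⟩)).mp
      (Module.rank_eq_one_iff_finrank_eq_one.mp levelOne_weight_four_rank_one) _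
  have hq := qExpansion_traceMF (G.mul G)
  rw [← hc4, FunLike.coe_smul, ModularForm.qExpansion_smul one_pos one_mem_strictPeriods_SL,
    qExpansion_frickeMF_mul, ModularForm.qExpansion_mul one_pos one_mem_strictPeriods_lvl,
    qExpansion_frickeMF_two] at hq
  refine ⟨p * c4, ?_⟩
  rw [mul_smul, hq]
  have h2 : ((p : ℂ) ^ ((2 : ℤ) - (2 + 2))) = ((p : ℂ) ^ 2)⁻¹ := by
    rw [show ((2 : ℤ) - (2 + 2)) = -2 by norm_num, zpow_neg]
    norm_cast
  rw [h2]
  ext n
  simp only [map_add, PowerSeries.coeff_smul, coeff_Uop, smul_eq_mul, neg_mul_neg, pow_two]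
  field_simp

/-- **weight 6 trace identity**: `p² g³ - U_p((U_p g)³) = mu · E₆`. -/
theorem trace_identity_six (G : ModularForm (lvl p) 2) :
    ∃ mu : ℂ, ((p : ℂ) ^ 2) • (qExpansion 1 G) ^ 3 - Uop p ((Uop p (qExpansion 1 G)) ^ 3)
      = mu • qExpansion 1 (E₆ : ℍ → ℂ) := by
  have hp : (p : ℂ) ≠ 0 := Nat.cast_ne_zero.mpr (Fact.out : p.Prime).ne_zero
  obtain ⟨c6, hc6⟩ : ∃ c6 : ℂ, c6 • E₆ = traceMF ((G.mul G).mul G) :=
    (finrank_eq_one_iff_of_nonzero' E₆ (E_ne_zero _ ⟨3, rfl⟩)).mp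
      (Module.rank_eq_one_iff_finrank_eq_one.mp levelOne_weight_six_rank_one) _
  have hq := qExpansion_traceMF ((G.mul G).mul G)
  rw [← hc6, FunLike.coe_smul, ModularForm.qExpansion_smul one_pos one_mem_strictPeriods_SL,
    qExpansion_frickeMF_mul, qExpansion_frickeMF_mul,
    ModularForm.qExpansion_mul one_pos one_mem_strictPeriods_lvl,
    ModularForm.qExpansion_mul one_pos one_mem_strictPeriods_lvl,
    qExpansion_frickeMF_two] at hq
  have hs : (p : ℂ) • ((p : ℂ) • (-Uop p (qExpansion 1 G) * -Uop p (qExpansion 1 G))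
        * -Uop p (qExpansion 1 G))
      = PowerSeries.C (-(p : ℂ) ^ 2) * (Uop p (qExpansion 1 G)) ^ 3 := by
    simp only [PowerSeries.smul_eq_C_mul, map_neg, map_pow]
    ring
  rw [hs, Uop_C_mul] at hq
  refine ⟨p ^ 2 * c6, ?_⟩
  rw [mul_smul, hq]
  have h2 : ((p : ℂ) ^ ((2 : ℤ) - (2 + 2 + 2))) = ((p : ℂ) ^ 4)⁻¹ := by
    rw [show ((2 : ℤ) - (2 + 2 + 2)) = -4 by norm_num, zpow_neg]
    norm_cast
  rw [h2]
  ext n
  simp only [map_add, map_sub, PowerSeries.coeff_smul, PowerSeries.coeff_C_mul, coeff_Uop,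
    smul_eq_mul]
  field_simp
  ring_nf

end Fermat.Agent.S16.UP
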