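/-
T16 / UP: `NoConstInt p p 1` for every prime `p ≥ 5` (the case `l = p` of the upper bound):
no `G ∈ M_2(Γ0(p))` has `q`-expansion `c₀ + p · (integral, no constant term)` with `p ∤ c₀`.

Proof: the trace identities of weight 4 and 6 (`UP/TraceId.lean`, from helper16's `Conj/Trace.lean`)
  `p g² + U_p((U_p g)²) = lam · E₄`,   `p² g³ - U_p((U_p g)³) = mu · E₆`
compared at `q^0` and `q^1` give `p ∣ 240 (p+1) c₀²` resp. `p ∣ 504 (p²-1) c₀³`
(`UP/AbstractRat.lean`).  `p ≠ 5`: weight 4 (`p ∤ 240`);  `p = 5`: weight 6 (`5 ∤ 504`).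
-/
import Fermat.Agent.S16.NoConst
import Fermat.Agent.S16.UP.AbstractRat
import Fermat.Agent.S16.UP.TraceId

set_option autoImplicit false

open UpperHalfPlane ModularForm ModularFormClass CongruenceSubgroup EisensteinSeries PowerSeries
open scoped MatrixGroups ModularForm

namespace Fermat.Agent.S16.UP

open Fermat.Agent.S16.Conj.Trace

lemma Up_eq_Uop {R : Type*} [Semiring R] (p : ℕ) (f : PowerSeries R) : Up p f = Uop p f := by
  ext n
  simp [mul_comm]

lemma coeff_qExpansion_E4 (m : ℕ) :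
    coeff m (qExpansion 1 (E₄ : ℍ → ℂ))
      = if m = 0 then 1 else 240 * (ArithmeticFunction.sigma 3 m : ℂ) := by
  rw [E_qExpansion_coeff (by norm_num : 3 ≤ 4) ⟨2, rfl⟩ m]
  rw [show bernoulli 4 = -1 / 30 by decide +kernel]
  rcases eq_or_ne m 0 with rfl | hm
  · simp
  · simp only [hm, if_false]
    push_cast
    norm_num

lemma coeff_qExpansion_E6 (m : ℕ) :
    coeff m (qExpansion 1 (E₆ : ℍ → ℂ))
      = if m = 0 then 1 else -504 * (ArithmeticFunction.sigma 5 m : ℂ) := by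
  rw [E_qExpansion_coeff (by norm_num : 3 ≤ 6) ⟨3, rfl⟩ m]
  rw [show bernoulli 6 = 1 / 42 by decide +kernel]
  rcases eq_or_ne m 0 with rfl | hm
  · simp
  · simp only [hm, if_false]
    push_cast
    norm_num

/-- rational model of `E₄` -/
noncomputable def e4Q : PowerSeries ℚ :=
  PowerSeries.mk fun n => if n = 0 then 1 else 240 * (ArithmeticFunction.sigma 3 n : ℚ)

/-- rational model of `E₆` -/
noncomputable def e6Q : PowerSeries ℚ :=
  PowerSeries.mk fun n => if n = 0 then 1 else -504 * (ArithmeticFunction.sigma 5 n : ℚ)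

lemma map_e4Q : e4Q.map (algebraMap ℚ ℂ) = qExpansion 1 (E₄ : ℍ → ℂ) := by
  ext m
  rw [coeff_map, coeff_qExpansion_E4, e4Q, coeff_mk]
  split_ifs <;> simp

lemma map_e6Q : e6Q.map (algebraMap ℚ ℂ) = qExpansion 1 (E₆ : ℍ → ℂ) := by
  ext m
  rw [coeff_map, coeff_qExpansion_E6, e6Q, coeff_mk]
  split_ifs <;> simp

lemma coeff_zero_e4Q : coeff 0 e4Q = 1 := by simp [e4Q]
lemma coeff_one_e4Q : coeff 1 e4Q = 240 := by simp [e4Q]
lemma coeff_zero_e6Q : coeff 0 e6Q = 1 := by simp [e6Q]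
lemma coeff_one_e6Q : coeff 1 e6Q = -504 := by simp [e6Q]

/-- weight 4 identity over `ℚ` for a rational model `g` of the `q`-expansion -/
lemma trace_identity_four_rat {p : ℕ} [Fact p.Prime] (G : ModularForm (Gamma0 p) 2)
    (g : PowerSeries ℚ) (hg : qExpansion 1 G = g.map (algebraMap ℚ ℂ)) :
    ∃ lam : ℚ, ∀ n, (p : ℚ) * coeff n (g ^ 2) + coeff (p * n) ((Up p g) ^ 2)
      = lam * coeff n e4Q := by
  obtain ⟨lam, hlam⟩ := trace_identity_four (p := p) G
  rw [hg, ← map_e4Q, Uop_map, ← map_pow, ← map_pow, Uop_map] at hlam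
  -- `lam` is rational
  have h0 := congrArg (coeff 0) hlam
  simp only [map_add, PowerSeries.coeff_smul, coeff_map, smul_eq_mul, coeff_zero_e4Q, map_one,
    mul_one] at h0
  set lamQ : ℚ := (p : ℚ) * coeff 0 (g ^ 2) + coeff 0 (Uop p ((Uop p g) ^ 2)) with hlamQ
  have hl : lam = algebraMap ℚ ℂ lamQ := by
    rw [← h0, hlamQ]
    simp
  refine ⟨lamQ, fun n => ?_⟩
  have hn := congrArg (coeff n) hlam
  simp only [map_add, PowerSeries.coeff_smul, coeff_map, smul_eq_mul, hl] at hn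
  apply (algebraMap ℚ ℂ).injective
  rw [Up_eq_Uop, ← coeff_Up, Up_eq_Uop]
  simpa using hn

/-- weight 6 identity over `ℚ` for a rational model `g` of the `q`-expansion -/
lemma trace_identity_six_rat {p : ℕ} [Fact p.Prime] (G : ModularForm (Gamma0 p) 2)
    (g : PowerSeries ℚ) (hg : qExpansion 1 G = g.map (algebraMap ℚ ℂ)) :
    ∃ mu : ℚ, ∀ n, (p : ℚ) ^ 2 * coeff n (g ^ 3) - coeff (p * n) ((Up p g) ^ 3)
      = mu * coeff n e6Q := by
  obtain ⟨mu, hmu⟩ := trace_identity_six (p := p) G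
  rw [hg, ← map_e6Q, Uop_map, ← map_pow, ← map_pow, Uop_map] at hmu
  have h0 := congrArg (coeff 0) hmu
  simp only [map_sub, PowerSeries.coeff_smul, coeff_map, smul_eq_mul, coeff_zero_e6Q, map_one,
    mul_one] at h0
  set muQ : ℚ := (p : ℚ) ^ 2 * coeff 0 (g ^ 3) - coeff 0 (Uop p ((Uop p g) ^ 3)) with hmuQ
  have hl : mu = algebraMap ℚ ℂ muQ := by
    rw [← h0, hmuQ]
    simp
  refine ⟨muQ, fun n => ?_⟩
  have hn := congrArg (coeff n) hmu
  simp only [map_sub, PowerSeries.coeff_smul, coeff_map, smul_eq_mul, hl] at hn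
  apply (algebraMap ℚ ℂ).injective
  rw [Up_eq_Uop, ← coeff_Up, Up_eq_Uop]
  simpa using hn

/-- **UP**: the case `l = p` of the upper bound. -/
theorem noConstInt_self (p : ℕ) [hp : Fact p.Prime] (h5 : 5 ≤ p) : NoConstInt p p 1 := by
  rintro ⟨G, ⟨c₀, hc₀, h0⟩, hk⟩
  choose c hc using hk
  let a : ℕ → ℚ := fun k => if h : 1 ≤ k then (p : ℚ) * (c k h : ℚ) else (c₀ : ℚ)
  have hg : qExpansion 1 G = (PowerSeries.mk a).map (algebraMap ℚ ℂ) := by
    ext k
    rw [coeff_map, coeff_mk]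
    by_cases h : 1 ≤ k
    · simp only [a, dif_pos h]
      rw [hc k h]
      simp
    · have hk0 : k = 0 := by omega
      subst hk0
      simp only [a, dif_neg h]
      rw [h0]
      simp
  have hn0 : padicNorm p (coeff 0 (PowerSeries.mk a)) = 1 := by
    have : coeff 0 (PowerSeries.mk a) = (c₀ : ℚ) := by simp [a]
    rw [this, padicNorm.int_eq_one_iff]
    exact hc₀
  have hn1 : ∀ n, 1 ≤ n → padicNorm p (coeff n (PowerSeries.mk a)) < 1 := by
    intro n hn
    have : coeff n (PowerSeries.mk a) = (p : ℚ) * (c n hn : ℚ) := by simp [a, hn]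
    rw [this, padicNorm.mul]
    calc padicNorm p (p : ℚ) * padicNorm p (c n hn : ℚ) ≤ padicNorm p (p : ℚ) * 1 :=
          mul_le_mul_of_nonneg_left (padicNorm.of_int _) (padicNorm.nonneg _)
      _ < 1 := by rw [mul_one]; exact padicNorm_natCast_lt_one p
  by_cases hp5 : p = 5
  · -- weight 6
    obtain ⟨mu, hmu⟩ := trace_identity_six_rat G _ hg
    refine false_of_trace6 (p := p) ?_ _ e6Q mu hn0 hn1 coeff_zero_e6Q coeff_one_e6Q hmu
    rw [hp5]
    norm_num
  · -- weight 4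
    obtain ⟨lam, hlam⟩ := trace_identity_four_rat G _ hg
    refine false_of_trace4 (p := p) ?_ _ e4Q lam hn0 hn1 coeff_zero_e4Q coeff_one_e4Q hlam
    intro hdvd
    have h240 : (240 : ℕ) = 2 ^ 4 * 3 * 5 := by norm_num
    rw [h240] at hdvd
    rcases (Nat.Prime.dvd_mul hp.out).1 hdvd with h | h
    · rcases (Nat.Prime.dvd_mul hp.out).1 h with h | h
      · have := (Nat.prime_dvd_prime_iff_eq hp.out Nat.prime_two).1 (hp.out.dvd_of_dvd_pow h)
        omega
      · have := (Nat.prime_dvd_prime_iff_eq hp.out Nat.prime_three).1 h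
        omega
    · have := (Nat.prime_dvd_prime_iff_eq hp.out Nat.prime_five).1 h
      omega

end Fermat.Agent.S16.UP
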