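/-
T16 / UP (the case `l = p` of the upper bound), abstract arithmetic core.  Mathlib only.

Setting: `p ≥ 7` prime, `G ∈ M_2(Γ0(p))` with `p`-integral `q`-expansion `∑ a_n q^n`, `a_0` a `p`-unit,
`a_n ≡ 0 mod p` for `n ≥ 1`.  The trace of `G^2` to level one lies in `M_4(SL2(ℤ)) = ℂ E_4`,
`E_4 = 1 + 240 q + …`, and has `q`-expansion `G^2 + p⁻¹ U_p((U_p G)^2)` (because `G|W = -U_p G`).
Comparing the coefficients of `q^0` and `q^1`:
  `lam = a_0^2 + p⁻¹ a_0^2`,   `240 lam = 2 a_0 a_1 + p⁻¹ ∑_{i+j=p} a_{pi} a_{pj}`.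
Multiplying by `p`: `240 (p+1) a_0^2 = 2 p a_0 a_1 + ∑_{i+j=p} a_{pi} a_{pj} ≡ 0 mod p`, so `p ∣ 240`.
-/
import Mathlib

set_option autoImplicit false

namespace Fermat.Agent.S16.UP

open Finset

/-- The abstract contradiction: the two coefficient identities are incompatible with
`a_0` a `p`-unit and `a_n ≡ 0 mod p` (`n ≥ 1`) when `p ∤ 240`. -/
theorem false_of_trace_identities (p : ℕ) [hp : Fact p.Prime] (hp240 : ¬ p ∣ 240)
    (a : ℕ → ℚ) (h0 : padicNorm p (a 0) = 1) (h1 : ∀ n, 1 ≤ n → padicNorm p (a n) < 1)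
    (lam : ℚ)
    (hE0 : lam = a 0 ^ 2 + (p : ℚ)⁻¹ * a 0 ^ 2)
    (hE1 : 240 * lam = 2 * a 0 * a 1 +
      (p : ℚ)⁻¹ * ∑ ij ∈ antidiagonal p, a (p * ij.1) * a (p * ij.2)) : False := by
  have hp0 : (p : ℚ) ≠ 0 := by exact_mod_cast hp.out.ne_zero
  have hpn : padicNorm p (p : ℚ) < 1 := by
    rw [padicNorm.padicNorm_p hp.out.one_lt]
    exact inv_lt_one_of_one_lt₀ (by exact_mod_cast hp.out.one_lt)
  -- clear the denominator `p`
  have key : 240 * ((p : ℚ) + 1) * a 0 ^ 2 =
      (p : ℚ) * (2 * a 0 * a 1) + ∑ ij ∈ antidiagonal p, a (p * ij.1) * a (p * ij.2) := by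
    generalize (∑ ij ∈ antidiagonal p, a (p * ij.1) * a (p * ij.2)) = S at hE1 ⊢
    have h2 : S = (p : ℚ) * (240 * lam - 2 * a 0 * a 1) := by
      rw [hE1]
      field_simp
      ring
    rw [h2, hE0]
    field_simp
    ring
  -- left side has norm 1
  have hL : padicNorm p (240 * ((p : ℚ) + 1) * a 0 ^ 2) = 1 := by
    rw [padicNorm.mul, padicNorm.mul, pow_two, padicNorm.mul, h0, mul_one, mul_one]
    have h240 : padicNorm p (240 : ℚ) = 1 := by
      have : padicNorm p ((240 : ℕ) : ℚ) = 1 := by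
        rw [padicNorm.nat_eq_one_iff]
        exact hp240
      simpa using this
    have hp1 : padicNorm p ((p : ℚ) + 1) = 1 := by
      have : padicNorm p (((p + 1 : ℕ)) : ℚ) = 1 := by
        rw [padicNorm.nat_eq_one_iff]
        intro hdvd
        have : p ∣ 1 := (Nat.dvd_add_right (dvd_refl p)).1 hdvd
        exact hp.out.one_lt.ne' (Nat.dvd_one.1 this)
      simpa using this
    rw [h240, hp1, mul_one]
  -- right side has norm < 1
  have hR : padicNorm p ((p : ℚ) * (2 * a 0 * a 1) +
      ∑ ij ∈ antidiagonal p, a (p * ij.1) * a (p * ij.2)) < 1 := by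
    have ha_le : ∀ n, padicNorm p (a n) ≤ 1 := by
      intro n
      rcases Nat.eq_zero_or_pos n with rfl | hn
      · exact h0.le
      · exact (h1 n hn).le
    have hA : padicNorm p ((p : ℚ) * (2 * a 0 * a 1)) < 1 := by
      rw [padicNorm.mul]
      have h2 : padicNorm p (2 * a 0 * a 1) ≤ 1 := by
        rw [padicNorm.mul, padicNorm.mul]
        have h2' : padicNorm p (2 : ℚ) ≤ 1 := by
          have := padicNorm.of_int (p := p) 2
          simpa using this
        exact mul_le_one₀ (mul_le_one₀ h2' (padicNorm.nonneg _) (ha_le 0)) (padicNorm.nonneg _)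
          (ha_le 1)
      calc padicNorm p (p : ℚ) * padicNorm p (2 * a 0 * a 1) ≤ padicNorm p (p : ℚ) * 1 :=
            mul_le_mul_of_nonneg_left h2 (padicNorm.nonneg _)
        _ < 1 := by rw [mul_one]; exact hpn
    have hB : padicNorm p (∑ ij ∈ antidiagonal p, a (p * ij.1) * a (p * ij.2)) < 1 := by
      apply padicNorm.sum_lt
      · exact ⟨(0, p), by simp⟩
      · intro ij hij
        rw [Finset.HasAntidiagonal.mem_antidiagonal] at hij
        rw [padicNorm.mul]
        -- one of the two indices is positive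
        have hpos : 1 ≤ p * ij.1 ∨ 1 ≤ p * ij.2 := by
          rcases Nat.eq_zero_or_pos ij.1 with h | h
          · right
            have : ij.2 = p := by omega
            rw [this]
            exact Nat.mul_pos hp.out.pos hp.out.pos
          · left
            exact Nat.mul_pos hp.out.pos h
        rcases hpos with h | h
        · calc padicNorm p (a (p * ij.1)) * padicNorm p (a (p * ij.2))
              ≤ padicNorm p (a (p * ij.1)) * 1 :=
                mul_le_mul_of_nonneg_left (ha_le _) (padicNorm.nonneg _)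
            _ < 1 := by rw [mul_one]; exact h1 _ h
        · calc padicNorm p (a (p * ij.1)) * padicNorm p (a (p * ij.2))
              ≤ 1 * padicNorm p (a (p * ij.2)) :=
                mul_le_mul_of_nonneg_right (ha_le _) (padicNorm.nonneg _)
            _ < 1 := by rw [one_mul]; exact h1 _ h
    calc padicNorm p ((p : ℚ) * (2 * a 0 * a 1) +
          ∑ ij ∈ antidiagonal p, a (p * ij.1) * a (p * ij.2))
        ≤ max (padicNorm p ((p : ℚ) * (2 * a 0 * a 1)))
            (padicNorm p (∑ ij ∈ antidiagonal p, a (p * ij.1) * a (p * ij.2))) :=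
          padicNorm.nonarchimedean
      _ < 1 := max_lt hA hB
  rw [key] at hL
  exact (lt_irrefl _) (hL ▸ hR)

end Fermat.Agent.S16.UP
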