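/-
T16 / UP (the case `l = p` of the upper bound), abstract core in the `PowerSeries ℤ` interface of
board 860 (helper32) / `Conj/Trace.lean` (helper16):
  (h1)  `U_p g = -gs`                       (`gs` = expansion of `G|W_p`)
  (h2)  `p g^2 + U_p(gs^2) = lam · E4`       (`Tr(G^2) ∈ M_4(SL2(ℤ)) = ℂ E4`)
Only the coefficients `n = 0, 1` of (h2) and `E4 = 1 + 240 q + …` are used.  Mathlib only.
-/
import Mathlib

set_option autoImplicit false

namespace Fermat.Agent.S16.UP

open Finset PowerSeries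

/-- **UP, abstract form.**  If `g ≡ c mod p` with `p ∤ c`, `p ∤ 240`, then the trace identities
(h1), (h2) are contradictory. -/
theorem false_of_trace_int (p : ℕ) [hp : Fact p.Prime] (hp240 : ¬ p ∣ 240)
    (g gs E4 : PowerSeries ℤ) (c lam : ℤ) (hc : ¬ (p : ℤ) ∣ c)
    (hg0 : coeff 0 g = c) (hg : ∀ n, 1 ≤ n → (p : ℤ) ∣ coeff n g)
    (h1 : ∀ n, coeff n gs = - coeff (p * n) g)
    (hE40 : coeff 0 E4 = 1) (hE41 : coeff 1 E4 = 240)
    (h2 : ∀ n, (p : ℤ) * coeff n (g ^ 2) + coeff (p * n) (gs ^ 2) = lam * coeff n E4) : False := by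
  have hpp : Prime (p : ℤ) := Nat.prime_iff_prime_int.1 hp.out
  have hgs0 : coeff 0 gs = -c := by rw [h1 0, mul_zero, hg0]
  have hgs : ∀ n, 1 ≤ n → (p : ℤ) ∣ coeff n gs := by
    intro n hn
    rw [h1 n]
    exact (dvd_neg).2 (hg _ (Nat.mul_pos hp.out.pos hn))
  -- coefficient 0 of (h2)
  have hz : ∀ f : PowerSeries ℤ, coeff 0 (f * f) = coeff 0 f * coeff 0 f := fun f => by
    simp only [coeff_zero_eq_constantCoeff, map_mul]
  have e0 := h2 0
  rw [mul_zero, hE40, mul_one, pow_two, pow_two, hz g, hz gs, hg0, hgs0] at e0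
  -- coefficient 1 of (h2)
  have e1 := h2 1
  rw [mul_one, hE41] at e1
  -- `coeff p (gs^2)` is divisible by `p`
  have hdiv : (p : ℤ) ∣ coeff p (gs ^ 2) := by
    rw [pow_two, coeff_mul]
    apply Finset.dvd_sum
    intro ij hij
    rw [Finset.HasAntidiagonal.mem_antidiagonal] at hij
    rcases Nat.eq_zero_or_pos ij.1 with h | h
    · have h2' : ij.2 = p := by omega
      rw [h2']
      exact Dvd.dvd.mul_left (hgs p hp.out.pos) _
    · exact Dvd.dvd.mul_right (hgs _ h) _
  have h240 : (p : ℤ) ∣ lam * 240 := by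
    rw [← e1]
    exact dvd_add (dvd_mul_right _ _) hdiv
  -- `lam = (p+1) c^2`
  have hlam : lam = (p : ℤ) * (c * c) + (-c) * (-c) := e0.symm
  have h3 : (p : ℤ) ∣ c * c * 240 := by
    have : lam * 240 = (p : ℤ) * (c * c * 240) + c * c * 240 := by rw [hlam]; ring
    rw [this] at h240
    exact (dvd_add_right (dvd_mul_right _ _)).1 h240
  rcases hpp.dvd_or_dvd h3 with h | h
  · rcases hpp.dvd_or_dvd h with h' | h' <;> exact hc h'
  · apply hp240
    have : ((p : ℕ) : ℤ) ∣ ((240 : ℕ) : ℤ) := by simpa using h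
    exact Int.natCast_dvd_natCast.1 this

end Fermat.Agent.S16.UP
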