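/-
T16 / UP (the case `l = p` of the upper bound), WEIGHT-6 variant of `UP/AbstractInt.lean` (helper38).

`UP/AbstractInt.lean` (helper46) uses `Tr(G^2) ∈ M_4(SL2(ℤ)) = ℂ E4` and needs `p ∤ 240`, so it does
NOT cover `p = 5` (`NoConst 5 5 1` is required by `Arith.upper_all`).  The same argument with
`Tr(G^3) ∈ M_6(SL2(ℤ)) = ℂ E6`, `E6 = 1 - 504 q - …`, needs only `p ∤ 504 = 2^3·3^2·7`, hence covers
`p = 5` (and every `p ∉ {2, 3, 7}`).  Interface (same `PowerSeries ℤ` shape as board 860):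
  (h1)  `U_p g = -gs`                         (`gs` = expansion of `G|W_p`)
  (h3)  `p^2 g^3 + U_p(gs^3) = lam · E6`       (`p^2 · Tr(G^3)`, since `(G^3)|_6 W = p^2 (G|_2 W)^3` and
                                               `Tr F = F + p^(2-k) U_p(F|_k W)`)
Only the coefficients `n = 0, 1` of (h3) are used.  Mathlib only.
-/
import Mathlib

set_option autoImplicit false

namespace Fermat.Agent.S16.UP

open Finset PowerSeries

/-- **UP, abstract form, weight 6.**  If `g ≡ c mod p` with `p ∤ c`, `p ∤ 504`, then the trace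
identities (h1), (h3) are contradictory. -/
theorem false_of_trace6_int (p : ℕ) [hp : Fact p.Prime] (hp504 : ¬ p ∣ 504)
    (g gs E6 : PowerSeries ℤ) (c lam : ℤ) (hc : ¬ (p : ℤ) ∣ c)
    (hg0 : coeff 0 g = c) (hg : ∀ n, 1 ≤ n → (p : ℤ) ∣ coeff n g)
    (h1 : ∀ n, coeff n gs = - coeff (p * n) g)
    (hE60 : coeff 0 E6 = 1) (hE61 : coeff 1 E6 = -504)
    (h3 : ∀ n, (p : ℤ) ^ 2 * coeff n (g ^ 3) + coeff (p * n) (gs ^ 3) = lam * coeff n E6) :
    False := by
  have hpp : Prime (p : ℤ) := Nat.prime_iff_prime_int.1 hp.out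
  have hgs0 : coeff 0 gs = -c := by rw [h1 0, mul_zero, hg0]
  have hgs : ∀ n, 1 ≤ n → (p : ℤ) ∣ coeff n gs := by
    intro n hn
    rw [h1 n]
    exact (dvd_neg).2 (hg _ (Nat.mul_pos hp.out.pos hn))
  -- coefficient 0 of (h3)
  have hz : ∀ f : PowerSeries ℤ, coeff 0 (f ^ 3) = coeff 0 f ^ 3 := fun f => by
    simp only [coeff_zero_eq_constantCoeff, map_pow]
  have e0 := h3 0
  rw [mul_zero, hE60, mul_one, hz g, hz gs, hg0, hgs0] at e0
  -- coefficient 1 of (h3)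
  have e1 := h3 1
  rw [mul_one, hE61] at e1
  -- a product has `p ∣ coeff n` for `n ≥ 1` as soon as both factors have it
  have hmul : ∀ a b : PowerSeries ℤ, (∀ n, 1 ≤ n → (p : ℤ) ∣ coeff n a) →
      (∀ n, 1 ≤ n → (p : ℤ) ∣ coeff n b) → ∀ n, 1 ≤ n → (p : ℤ) ∣ coeff n (a * b) := by
    intro a b ha hb n hn
    rw [coeff_mul]
    apply Finset.dvd_sum
    intro ij hij
    rw [Finset.HasAntidiagonal.mem_antidiagonal] at hij
    rcases Nat.eq_zero_or_pos ij.1 with h | h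
    · have h2' : 1 ≤ ij.2 := by omega
      exact Dvd.dvd.mul_left (hb _ h2') _
    · exact Dvd.dvd.mul_right (ha _ h) _
  have hdiv : (p : ℤ) ∣ coeff p (gs ^ 3) := by
    have e : gs ^ 3 = gs * gs * gs := by ring
    rw [e]
    exact hmul _ _ (hmul _ _ hgs hgs) hgs p hp.out.pos
  have h504 : (p : ℤ) ∣ lam * -504 := by
    rw [← e1]
    exact dvd_add (Dvd.dvd.mul_right (dvd_pow_self _ two_ne_zero) _) hdiv
  -- `lam = (p^2 - 1) c^3`
  have hlam : lam = (p : ℤ) ^ 2 * c ^ 3 + (-c) ^ 3 := e0.symm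
  have h3' : (p : ℤ) ∣ c ^ 3 * 504 := by
    have : lam * -504 = (p : ℤ) * (-(p : ℤ) * c ^ 3 * 504) + c ^ 3 * 504 := by rw [hlam]; ring
    rw [this] at h504
    exact (dvd_add_right (dvd_mul_right _ _)).1 h504
  rcases hpp.dvd_or_dvd h3' with h | h
  · exact hc (hpp.dvd_of_dvd_pow h)
  · apply hp504
    have : ((p : ℕ) : ℤ) ∣ ((504 : ℕ) : ℤ) := by simpa using h
    exact Int.natCast_dvd_natCast.1 this

/-- For every prime `p ≥ 5`: `p ∤ 240` or `p ∤ 504` (so `AbstractInt` + `AbstractInt6` cover all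
`p ≥ 5`). -/
theorem not_dvd_240_or_not_dvd_504 (p : ℕ) (hp : p.Prime) (h5 : 5 ≤ p) :
    ¬ p ∣ 240 ∨ ¬ p ∣ 504 := by
  by_contra h
  rw [not_or, not_not, not_not] at h
  have h1 : p ∣ Nat.gcd 240 504 := Nat.dvd_gcd h.1 h.2
  have h2 : Nat.gcd 240 504 = 24 := by norm_num
  rw [h2] at h1
  have h3 : p ≤ 24 := Nat.le_of_dvd (by norm_num) h1
  interval_cases p <;> first | omega | (exact absurd hp (by decide))

end Fermat.Agent.S16.UP
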